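import Mathlib.Probability.StrongLaw
import Mathlib.Probability.Independence.InfinitePi

/-!
# The strong law on the growing corners of an infinite symmetric matrix
-/

set_option autoImplicit false

noncomputable section

namespace FA.WignerFiniteVariance

open Finset MeasureTheory ProbabilityTheory Filter Topology

/-- The number of entries on and above the diagonal of the `n × n` corner. -/
def triCount : ℕ → ℕ
  | 0 => 0
  | n + 1 => triCount n + (n + 1)

theorem self_le_triCount : ∀ m : ℕ, m ≤ triCount m
  | 0 => le_rfl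
  | n + 1 => by rw [triCount]; omega

theorem triCount_mono : Monotone triCount :=
  monotone_nat_of_le_succ fun _ => Nat.le_add_right _ _

theorem two_mul_triCount : ∀ n, 2 * triCount n = n * (n + 1)
  | 0 => rfl
  | n + 1 => by rw [triCount, mul_add, two_mul_triCount n]; ring

theorem exists_lt_triCount (m : ℕ) : ∃ j, m < triCount (j + 1) :=
  ⟨m, self_le_triCount (m + 1)⟩

/-- The larger index of the `m`th entry. -/
def triRow (m : ℕ) : ℕ := Nat.find (exists_lt_triCount m)

/-- The entries on and above the diagonal, listed corner by corner. -/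
def pairAt (m : ℕ) : Sym2 ℕ := s(m - triCount (triRow m), triRow m)

theorem triCount_triRow_le (m : ℕ) : triCount (triRow m) ≤ m := by
  rcases Nat.eq_zero_or_pos (triRow m) with h | h
  · simp [h, triCount]
  · obtain ⟨j, hj⟩ : ∃ j, triRow m = j + 1 := ⟨triRow m - 1, by omega⟩
    have := Nat.find_min (exists_lt_triCount m) (show j < triRow m by omega)
    rw [hj]
    omega

theorem sub_le_triRow (m : ℕ) : m - triCount (triRow m) ≤ triRow m := by
  have h : m < triCount (triRow m + 1) := Nat.find_spec (exists_lt_triCount m)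
  rw [triCount] at h
  omega

theorem triRow_eq {i j : ℕ} (hij : i ≤ j) : triRow (triCount j + i) = j := by
  refine (Nat.find_eq_iff _).2 ⟨by rw [triCount]; omega, fun l hl h => ?_⟩
  have := triCount_mono (show l + 1 ≤ j by omega)
  omega

theorem pairAt_eq {i j : ℕ} (hij : i ≤ j) : pairAt (triCount j + i) = s(i, j) := by
  rw [pairAt, triRow_eq hij, Nat.add_sub_cancel_left]

theorem pairAt_injective : Function.Injective pairAt := fun a b h => by
  have ha := sub_le_triRow a
  have hb := sub_le_triRow b
  have ha' := triCount_triRow_le a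
  have hb' := triCount_triRow_le b
  rw [pairAt, pairAt, Sym2.eq_iff] at h
  rcases h with ⟨h1, h2⟩ | ⟨h1, h2⟩
  · rw [h2] at ha' h1
    omega
  · have e : triRow a = triRow b := by omega
    rw [e] at ha' h1
    omega

theorem sum_square_le (g : Sym2 ℕ → ℝ) (hg : ∀ e, 0 ≤ g e) (n : ℕ) :
    ∑ i ∈ range n, ∑ j ∈ range n, g s(i, j) ≤ 2 * ∑ m ∈ range (triCount n), g (pairAt m) := by
  induction n with
  | zero => simp [triCount]
  | succ n ih =>
    simp only [triCount, sum_range_succ (n := n), sum_range_add _ (triCount n), sum_add_distrib]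
    have hrow : ∑ i ∈ range n, g (pairAt (triCount n + i)) = ∑ i ∈ range n, g s(i, n) :=
      sum_congr rfl fun i hi => by rw [pairAt_eq (mem_range.1 hi).le]
    rw [pairAt_eq le_rfl, hrow]
    have hswap : ∑ j ∈ range n, g s(n, j) = ∑ i ∈ range n, g s(i, n) :=
      sum_congr rfl fun i _ => by rw [Sym2.eq_swap]
    linarith [hg s(n, n)]

variable (μ : Measure ℝ) [IsProbabilityMeasure μ]

/-- Averages over the corners are eventually below every bound above the mean. -/
theorem ae_eventually_average_lt {h : ℝ → ℝ} (hm : Measurable h) (hi : Integrable h μ)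
    (h0 : ∀ x, 0 ≤ h x) {c : ℝ} (hc : ∫ x, h x ∂μ < c) :
    ∀ᵐ X ∂(Measure.infinitePi fun _ : Sym2 ℕ => μ), ∀ᶠ n : ℕ in atTop,
      (∑ i : Fin n, ∑ j : Fin n, h (X s((i : ℕ), (j : ℕ)))) / (n : ℝ) ^ 2 < c := by
  set P := Measure.infinitePi fun _ : Sym2 ℕ => μ with hP
  have hev : ∀ e : Sym2 ℕ, P.map (fun X => X e) = μ := fun e => Measure.infinitePi_map_eval _ e
  have hval : ∀ e : Sym2 ℕ, ∫ X, h (X e) ∂P = ∫ x, h x ∂μ := fun e => by
    have e' := integral_map (μ := P) (f := h) (measurable_pi_apply e).aemeasurable
      (hev e ▸ hi.aestronglyMeasurable)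
    rw [hev] at e'
    exact e'.symm
  have hint : Integrable (fun X : Sym2 ℕ → ℝ => h (X (pairAt 0))) P :=
    (integrable_map_measure (hev _ ▸ hi.aestronglyMeasurable)
      (measurable_pi_apply _).aemeasurable).1 (by rw [hev]; exact hi)
  have hind := (iIndepFun_infinitePi (P := fun _ : Sym2 ℕ => μ) (X := fun _ => h)
    fun _ => hm).precomp pairAt_injective
  have hslln := strong_law_ae_real (fun m (X : Sym2 ℕ → ℝ) => h (X (pairAt m))) hint
    (fun a b hab => hind.indepFun hab) fun m =>
      (IdentDistrib.mk (measurable_pi_apply (pairAt m)).aemeasurable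
        (measurable_pi_apply (pairAt 0)).aemeasurable (by rw [hev, hev])).comp hm
  filter_upwards [hslln] with X hX
  rw [hval] at hX
  have h1 := hX.comp (tendsto_atTop_mono self_le_triCount tendsto_id)
  have h2 : Tendsto (fun n : ℕ => 1 + (n : ℝ)⁻¹) atTop (𝓝 1) := by
    simpa using (tendsto_inv_atTop_zero.comp tendsto_natCast_atTop_atTop).const_add (1 : ℝ)
  have h3 := h1.mul h2
  rw [mul_one] at h3
  filter_upwards [h3.eventually_lt_const hc, eventually_gt_atTop 0] with n hn hn0
  refine lt_of_le_of_lt ?_ hn
  have hs := sum_square_le (fun e => h (X e)) (fun e => h0 _) n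
  rw [← Fin.sum_univ_eq_sum_range (fun i => ∑ j ∈ range n, h (X s(i, j)))] at hs
  simp only [← Fin.sum_univ_eq_sum_range] at hs
  rw [Fin.sum_univ_eq_sum_range (fun m => h (X (pairAt m)))] at hs
  have hn' : (0 : ℝ) < n := Nat.cast_pos.2 hn0
  have hT : 2 * (triCount n : ℝ) = n * (n + 1) := by exact_mod_cast two_mul_triCount n
  have hT0 : (0 : ℝ) < triCount n := by nlinarith
  refine (div_le_div_of_nonneg_right hs (by positivity)).trans_eq ?_
  simp only [Function.comp_apply]
  field_simp
  linear_combination (∑ m ∈ range (triCount n), h (X (pairAt m))) * hT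

end FA.WignerFiniteVariance
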