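import Mathlib.MeasureTheory.Integral.DominatedConvergence
import Mathlib.MeasureTheory.Function.L1Space.Integrable

/-!
# Truncation and standardisation of a law with finite variance
-/

set_option autoImplicit false

noncomputable section

namespace FA.WignerFiniteVariance

open MeasureTheory Filter Topology

/-- `x` cut off outside `[-R, R]`. -/
def cutOff (R : ℕ) (x : ℝ) : ℝ := (Set.Icc (-(R : ℝ)) R).indicator id x

theorem measurable_cutOff (R : ℕ) : Measurable (cutOff R) :=
  measurable_id.indicator measurableSet_Icc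

theorem abs_cutOff_le (R : ℕ) (x : ℝ) : |cutOff R x| ≤ R ∧ |cutOff R x| ≤ |x| := by
  by_cases h : x ∈ Set.Icc (-(R : ℝ)) R
  · rw [cutOff, Set.indicator_of_mem h]
    exact ⟨abs_le.2 h, le_rfl⟩
  · rw [cutOff, Set.indicator_of_notMem h]
    simp

theorem tendsto_cutOff (x : ℝ) : Tendsto (fun R => cutOff R x) atTop (𝓝 x) := by
  refine tendsto_const_nhds.congr' ?_
  filter_upwards [eventually_ge_atTop ⌈|x|⌉₊] with R hR
  rw [cutOff, Set.indicator_of_mem (show x ∈ Set.Icc (-(R : ℝ)) R from
    abs_le.1 ((Nat.le_ceil _).trans (Nat.cast_le.2 hR)))]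
  rfl

variable (μ : Measure ℝ)

/-- The mean after the cut. -/
def cutMean (R : ℕ) : ℝ := ∫ x, cutOff R x ∂μ

/-- The variance after the cut. -/
def cutVar (R : ℕ) : ℝ := ∫ x, (cutOff R x - cutMean μ R) ^ 2 ∂μ

/-- The standardised cut. -/
def standardCut (R : ℕ) (x : ℝ) : ℝ := (cutOff R x - cutMean μ R) / √(cutVar μ R)

/-- The squared change made by the standardised cut. -/
def cutErr (R : ℕ) (x : ℝ) : ℝ := (x - standardCut μ R x) ^ 2

theorem measurable_standardCut (R : ℕ) : Measurable (standardCut μ R) :=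
  ((measurable_cutOff R).sub_const _).div_const _

theorem measurable_cutErr (R : ℕ) : Measurable (cutErr μ R) :=
  (measurable_id.sub (measurable_standardCut μ R)).pow_const 2

theorem abs_standardCut_le (R : ℕ) (x : ℝ) :
    |standardCut μ R x| ≤ ((R : ℝ) + |cutMean μ R|) / √(cutVar μ R) := by
  rw [standardCut, abs_div, abs_of_nonneg (Real.sqrt_nonneg _)]
  exact div_le_div_of_nonneg_right ((abs_sub _ _).trans (by linarith [(abs_cutOff_le R x).1]))
    (Real.sqrt_nonneg _)

variable [IsProbabilityMeasure μ]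

omit [IsProbabilityMeasure μ] in
theorem integrable_sq_of_eq_one (h2 : ∫ x, x ^ 2 ∂μ = 1) : Integrable (fun x : ℝ => x ^ 2) μ := by
  by_contra h
  rw [integral_undef h] at h2
  exact one_ne_zero h2.symm

theorem integrable_abs_of_sq (h2 : Integrable (fun x : ℝ => x ^ 2) μ) :
    Integrable (fun x : ℝ => |x|) μ :=
  (h2.add (integrable_const (1 : ℝ))).mono' measurable_norm.aestronglyMeasurable
    (.of_forall fun x => by
      simp only [Pi.add_apply, Real.norm_eq_abs, abs_abs]
      nlinarith [sq_nonneg (|x| - 1), sq_abs x])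

theorem integrable_bounded {g : ℝ → ℝ} (hg : Measurable g) {C : ℝ} (h : ∀ x, |g x| ≤ C) :
    Integrable g μ :=
  Integrable.of_bound hg.aestronglyMeasurable C (.of_forall h)

theorem integrable_standardCut_pow (R k : ℕ) :
    Integrable (fun x => standardCut μ R x ^ k) μ :=
  integrable_bounded μ ((measurable_standardCut μ R).pow_const k) fun x => by
    rw [abs_pow]
    exact pow_le_pow_left₀ (abs_nonneg _) (abs_standardCut_le μ R x) k

theorem integrable_cutErr (h2 : ∫ x, x ^ 2 ∂μ = 1) (R : ℕ) : Integrable (cutErr μ R) μ := by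
  have hi := (((integrable_sq_of_eq_one μ h2).const_mul 2).add
    ((integrable_standardCut_pow μ R 2).const_mul 2))
  refine hi.mono' (measurable_cutErr μ R).aestronglyMeasurable (.of_forall fun x => ?_)
  rw [Real.norm_eq_abs, cutErr, abs_sq, Pi.add_apply]
  nlinarith [sq_nonneg (x + standardCut μ R x)]

theorem integral_standardCut (R : ℕ) : ∫ x, standardCut μ R x ∂μ = 0 := by
  simp only [standardCut]
  rw [integral_div, integral_sub (integrable_bounded μ (measurable_cutOff R)
    fun x => (abs_cutOff_le R x).1) (integrable_const _), integral_const, probReal_univ, one_smul]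
  simp [cutMean]

omit [IsProbabilityMeasure μ] in
theorem integral_standardCut_sq {R : ℕ} (hR : 0 < cutVar μ R) :
    ∫ x, standardCut μ R x ^ 2 ∂μ = 1 := by
  simp only [standardCut, div_pow, Real.sq_sqrt hR.le]
  rw [integral_div]
  exact div_self hR.ne'

variable (h1 : ∫ x, x ∂μ = 0) (h2 : ∫ x, x ^ 2 ∂μ = 1)
include h1 h2

theorem tendsto_cutMean : Tendsto (cutMean μ) atTop (𝓝 0) := by
  rw [← h1]
  exact tendsto_integral_of_dominated_convergence (fun x => |x|)
    (fun R => (measurable_cutOff R).aestronglyMeasurable)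
    (integrable_abs_of_sq μ (integrable_sq_of_eq_one μ h2))
    (fun R => .of_forall fun x => (abs_cutOff_le R x).2) (.of_forall tendsto_cutOff)

theorem eventually_cutMean_le : ∀ᶠ R in atTop, |cutMean μ R| ≤ 1 := by
  filter_upwards [(tendsto_cutMean μ h1 h2).abs.eventually_le_const
    (show |(0 : ℝ)| < 1 by simp)] with R hR
  exact hR

theorem tendsto_cutVar : Tendsto (cutVar μ) atTop (𝓝 1) := by
  have hi : Integrable (fun x : ℝ => 2 * x ^ 2 + 2) μ :=
    ((integrable_sq_of_eq_one μ h2).const_mul 2).add (integrable_const _)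
  rw [← h2]
  refine tendsto_integral_filter_of_dominated_convergence (fun x => 2 * x ^ 2 + 2)
    (.of_forall fun R => (((measurable_cutOff R).sub_const _).pow_const 2).aestronglyMeasurable)
    ?_ hi (.of_forall fun x => ?_)
  · filter_upwards [eventually_cutMean_le μ h1 h2] with R hR
    refine .of_forall fun x => ?_
    rw [Real.norm_eq_abs, abs_sq]
    have h3 := (abs_sub (cutOff R x) (cutMean μ R)).trans (add_le_add (abs_cutOff_le R x).2 hR)
    nlinarith [sq_abs (cutOff R x - cutMean μ R), sq_abs x, sq_nonneg (|x| - 1),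
      pow_le_pow_left₀ (abs_nonneg _) h3 2]
  · simpa using ((tendsto_cutOff x).sub (tendsto_cutMean μ h1 h2)).pow 2

theorem eventually_cutVar_pos : ∀ᶠ R in atTop, 0 < cutVar μ R :=
  (tendsto_cutVar μ h1 h2).eventually_const_lt one_pos

theorem tendsto_integral_cutErr : Tendsto (fun R => ∫ x, cutErr μ R x ∂μ) atTop (𝓝 0) := by
  have hi : Integrable (fun x : ℝ => 18 * x ^ 2 + 8) μ :=
    ((integrable_sq_of_eq_one μ h2).const_mul 18).add (integrable_const _)
  rw [show (0 : ℝ) = ∫ _ : ℝ, (0 : ℝ) ∂μ by simp]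
  refine tendsto_integral_filter_of_dominated_convergence (fun x => 18 * x ^ 2 + 8)
    (.of_forall fun R => (measurable_cutErr μ R).aestronglyMeasurable) ?_ hi
    (.of_forall fun x => ?_)
  · filter_upwards [eventually_cutMean_le μ h1 h2, (tendsto_cutVar μ h1 h2).eventually_const_le
      (show (1 / 4 : ℝ) < 1 by norm_num)] with R hR hv
    refine .of_forall fun x => ?_
    rw [Real.norm_eq_abs, cutErr, abs_sq]
    have hs : 1 / 2 ≤ √(cutVar μ R) := by
      rw [Real.le_sqrt (by norm_num) (by linarith)]
      norm_num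
      linarith
    have h3 := (abs_sub (cutOff R x) (cutMean μ R)).trans (add_le_add (abs_cutOff_le R x).2 hR)
    have h4 : |standardCut μ R x| ≤ 2 * (|x| + 1) := by
      rw [standardCut, abs_div, abs_of_nonneg (Real.sqrt_nonneg _), div_le_iff₀ (by linarith)]
      nlinarith [abs_nonneg x]
    have h5 := pow_le_pow_left₀ (abs_nonneg _)
      ((abs_sub x (standardCut μ R x)).trans (add_le_add le_rfl h4)) 2
    nlinarith [sq_abs (x - standardCut μ R x), sq_abs x, sq_nonneg (3 * |x| - 2)]
  · have h3 := (((tendsto_cutOff x).sub (tendsto_cutMean μ h1 h2)).div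
      ((Real.continuous_sqrt.tendsto 1).comp (tendsto_cutVar μ h1 h2)) (by simp))
    simpa [cutErr, standardCut, Function.comp_def] using ((h3.const_sub x).pow 2)

end FA.WignerFiniteVariance
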