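import Fermat.Agent.WignerFiniteVariance.Deterministic
import Fermat.Agent.WignerFiniteVariance.Triangle
import Fermat.Agent.WignerFiniteVariance.Truncate
import Fermat.Agent.WignerAlmostSure.Almost
import Fermat.Agent.WignerAlmostSure.Deterministic

/-!
# The semicircle law for finite variance
-/

set_option autoImplicit false

noncomputable section

namespace FA.WignerFiniteVariance

open Finset MeasureTheory Filter Topology
open FA.WignerAlmostSure (corner)
open FA.WignerWeakLaw (spectralMean semiMean boxInd)

theorem entryMean_corner (h : ℝ → ℝ) (g : ℝ → ℝ) (hg : ∀ x, g x ^ 2 = h x) (n : ℕ)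
    (X : Sym2 ℕ → ℝ) :
    entryMean (fun e => g (corner n X e)) =
      (∑ i : Fin n, ∑ j : Fin n, h (X s((i : ℕ), (j : ℕ)))) / (n : ℝ) ^ 2 := by
  simp only [entryMean, hg, corner, Sym2.map_mk]

variable (μ : Measure ℝ) [IsProbabilityMeasure μ]

/-- The standardised cuts follow the semicircle law. -/
theorem ae_cut_semicircle (R : ℕ) :
    ∀ᵐ X ∂(Measure.infinitePi fun _ : Sym2 ℕ => μ), 0 < cutVar μ R → ∀ k : ℕ,
      Tendsto (fun n : ℕ => FA.WignerWeakLaw.scaledTrace k
        (corner n fun e => standardCut μ R (X e))) atTop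
        (𝓝 (FA.WignerSemicircle.limitMoment k)) := by
  rcases le_or_gt (cutVar μ R) 0 with hR | hR
  · exact .of_forall fun X hX => absurd hX hR.not_gt
  set ν := μ.map (standardCut μ R) with hν
  have hm : AEMeasurable (standardCut μ R) μ := (measurable_standardCut μ R).aemeasurable
  have hν1 : IsProbabilityMeasure ν := Measure.isProbabilityMeasure_map hm
  have hmom : ∀ k : ℕ, Integrable (fun x => x ^ k) ν := fun k =>
    (integrable_map_measure (by fun_prop) hm).2 (integrable_standardCut_pow μ R k)
  have hmap := Measure.infinitePi_map_pi (fun _ : Sym2 ℕ => μ) (f := fun _ => standardCut μ R)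
    fun _ => measurable_standardCut μ R
  have h := FA.WignerAlmostSure.ae_tendsto_moments ν hmom
    (by rw [hν, integral_map hm (by fun_prop)]; exact integral_standardCut μ R)
    (by rw [hν, integral_map hm (by fun_prop)]; exact integral_standardCut_sq μ hR)
  rw [← hmap] at h
  filter_upwards [ae_of_ae_map (measurable_pi_lambda _ fun e =>
    (measurable_standardCut μ R).comp (measurable_pi_apply e)).aemeasurable h] with X hX _
  exact hX

variable (h1 : ∫ x, x ∂μ = 0) (h2 : ∫ x, x ^ 2 ∂μ = 1)
include h1 h2

theorem ae_semicircle :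
    ∀ᵐ X ∂(Measure.infinitePi fun _ : Sym2 ℕ => μ),
      ∀ f : ℝ → ℝ, Continuous f → (∃ F, ∀ x, |f x| ≤ F) →
        Tendsto (fun n => spectralMean f (corner n X)) atTop (𝓝 (semiMean f)) := by
  have hd : Tendsto (fun R : ℕ => (∫ x, cutErr μ R x ∂μ) + 1 / ((R : ℝ) + 1)) atTop (𝓝 0) := by
    simpa using (tendsto_integral_cutErr μ h1 h2).add tendsto_one_div_add_atTop_nhds_zero_nat
  have hcut := ae_all_iff.2 (ae_cut_semicircle μ)
  have herr := ae_all_iff.2 fun R : ℕ => ae_eventually_average_lt μ (measurable_cutErr μ R)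
    (integrable_cutErr μ h2 R) (fun x => sq_nonneg _)
    (c := (∫ x, cutErr μ R x ∂μ) + 1 / ((R : ℝ) + 1)) (lt_add_of_pos_right _ (by positivity))
  have hsq := ae_eventually_average_lt μ (h := fun x => x ^ 2) (by fun_prop)
    (integrable_sq_of_eq_one μ h2) sq_nonneg (c := 2) (by rw [h2]; norm_num)
  filter_upwards [hcut, herr, hsq] with X hX hE hS f hf hb
  obtain ⟨F, hF⟩ := hb
  refine tendsto_bounded_of_lipschitz (fun n => corner n X) ?_ ?_ hf hF
  · filter_upwards [hS] with n hn
    exact (entryMean_corner (fun x => x ^ 2) id (fun x => rfl) n X).trans_lt hn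
  · rintro g hgc hgb ⟨L, hL, hgl⟩
    refine tendsto_lipschitz_of_nearby (fun n => corner n X)
      (fun R n => corner n fun e => standardCut μ R (X e)) _ hd (fun R => ?_) ?_ hgc hgb hL hgl
    · filter_upwards [hE R] with n hn
      exact (entryMean_corner (cutErr μ R) (fun x => x - standardCut μ R x) (fun x => rfl)
        n X).trans_lt hn
    · filter_upwards [eventually_cutVar_pos μ h1 h2] with R hR p hp hpb
      obtain ⟨P, hP⟩ := hpb
      exact FA.WignerAlmostSure.tendsto_spectralMean_of_moments _ (hX R hR) hp hP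

theorem ae_semicircle_box :
    ∀ᵐ X ∂(Measure.infinitePi fun _ : Sym2 ℕ => μ), ∀ a b : ℝ,
      Tendsto (fun n => spectralMean (boxInd a b) (corner n X)) atTop
        (𝓝 (semiMean (boxInd a b))) := by
  filter_upwards [ae_semicircle μ h1 h2] with X hX a b
  exact tendsto_box_of_bounded (fun n => corner n X) hX a b

end FA.WignerFiniteVariance
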