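import Fermat.Agent.WignerFiniteVariance.Lipschitz
import Fermat.Agent.WignerWeakLaw.Interval
import Mathlib.Analysis.Calculus.Deriv.Polynomial
import Mathlib.Analysis.Calculus.MeanValue

/-!
# Comparison of the spectral means of nearby matrices
-/

set_option autoImplicit false

noncomputable section

namespace FA.WignerFiniteVariance

open Finset Filter Topology
open FA.WignerSemicircle (wignerMatrix)
open FA.WignerWeakLaw

variable {n : ℕ}

/-- The mean square of the entries of a symmetric matrix. -/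
def entryMean (Y : Sym2 (Fin n) → ℝ) : ℝ := (∑ i, ∑ j, Y s(i, j) ^ 2) / (n : ℝ) ^ 2

theorem abs_spectralMean_sub_le {f : ℝ → ℝ} {L : ℝ} (hL : 0 ≤ L)
    (hf : ∀ x y, |f x - f y| ≤ L * |x - y|) (Y Z : Sym2 (Fin n) → ℝ) :
    |spectralMean f Y - spectralMean f Z| ≤ L * √(entryMean fun e => Y e - Z e) := by
  rcases n.eq_zero_or_pos with rfl | hn
  · simp [spectralMean, entryMean]
  have h := abs_sum_eigen_sub_le (isHermitian_scaled Y) (isHermitian_scaled Z) hL hf
  have hn' : (0 : ℝ) < n := Nat.cast_pos.2 hn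
  simp only [spectralMean, wignerEigen]
  rw [← mul_sub, abs_mul, abs_inv, Nat.abs_cast, inv_mul_le_iff₀ hn']
  refine h.trans_eq ?_
  rw [Fintype.card_fin, ← Real.sqrt_mul hn'.le, entryMean, Real.sqrt_div' _ (by positivity),
    Real.sqrt_sq hn'.le, mul_left_comm (n : ℝ) L, mul_div_cancel₀ _ hn'.ne', mul_sum]
  congr 2
  refine sum_congr rfl fun i _ => ?_
  rw [mul_sum]
  refine sum_congr rfl fun j _ => ?_
  simp only [Matrix.smul_apply, wignerMatrix, Matrix.of_apply, smul_eq_mul]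
  rw [← mul_sub, mul_pow, inv_pow, Real.sq_sqrt hn'.le, mul_inv_cancel_left₀ hn'.ne']

theorem spectralMean_sq (Y : Sym2 (Fin n) → ℝ) :
    spectralMean (fun x => x ^ 2) Y = entryMean Y := by
  rw [spectralMean_pow, scaledTrace_eq, entryMean, sum_congr rfl fun i _ => sum_congr rfl fun j _ =>
    show Y s(i, j) ^ 2 = wignerMatrix Y i j ^ 2 from rfl, sum_sq_eq_trace,
    show (wignerMatrix Y).transpose = wignerMatrix Y from
      Matrix.ext fun i j => by simp [wignerMatrix, Sym2.eq_swap (a := i)],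
    sq (wignerMatrix Y), inv_pow, Real.sq_sqrt (Nat.cast_nonneg n), div_eq_inv_mul, sq, mul_inv]

/-- Convergence for Lipschitz functions passes to the limit of nearby matrices. -/
theorem tendsto_lipschitz_of_nearby (X : ∀ n : ℕ, Sym2 (Fin n) → ℝ)
    (Y : ℕ → ∀ n : ℕ, Sym2 (Fin n) → ℝ) (d : ℕ → ℝ) (hd : Tendsto d atTop (𝓝 0))
    (hclose : ∀ R, ∀ᶠ n in atTop, entryMean (fun e => X n e - Y R n e) < d R)
    (hY : ∀ᶠ R in atTop, ∀ f : ℝ → ℝ, Continuous f → (∃ F, ∀ x, |f x| ≤ F) →
      Tendsto (fun n => spectralMean f (Y R n)) atTop (𝓝 (semiMean f)))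
    {f : ℝ → ℝ} (hf : Continuous f) (hb : ∃ F, ∀ x, |f x| ≤ F) {L : ℝ} (hL : 0 ≤ L)
    (hlip : ∀ x y, |f x - f y| ≤ L * |x - y|) :
    Tendsto (fun n => spectralMean f (X n)) atTop (𝓝 (semiMean f)) := by
  refine Metric.tendsto_atTop'.2 fun η hη => ?_
  have hs : Tendsto (fun R => L * √(d R)) atTop (𝓝 0) := by
    simpa using ((Real.continuous_sqrt.tendsto 0).comp hd).const_mul L
  obtain ⟨R, hR, hYR⟩ := ((hs.eventually_lt_const (half_pos hη)).and hY).exists
  obtain ⟨N, hN⟩ := ((hclose R).and (Metric.tendsto_nhds.1 (hYR f hf hb) _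
    (half_pos hη))).exists_forall_of_atTop
  refine ⟨N, fun m hm => ?_⟩
  obtain ⟨h1, h2⟩ := hN m hm.le
  have h3 := (abs_spectralMean_sub_le hL hlip (X m) (Y R m)).trans
    (mul_le_mul_of_nonneg_left (Real.sqrt_le_sqrt h1.le) hL)
  rw [Real.dist_eq] at h2 ⊢
  linarith [abs_sub_le (spectralMean f (X m)) (spectralMean f (Y R m)) (semiMean f)]

theorem polynomial_lipschitzOn (P : Polynomial ℝ) (M : ℝ) :
    ∃ L, 0 ≤ L ∧ ∀ x ∈ Set.Icc (-M) M, ∀ y ∈ Set.Icc (-M) M,
      |P.eval x - P.eval y| ≤ L * |x - y| := by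
  obtain ⟨C, hC⟩ := isCompact_Icc.exists_bound_of_continuousOn
    (s := Set.Icc (-M) M) P.derivative.continuous.continuousOn
  refine ⟨max C 0, le_max_right _ _, fun x hx y hy => ?_⟩
  simpa [Real.norm_eq_abs] using (convex_Icc (-M) M).norm_image_sub_le_of_norm_deriv_le
    (f := fun z => P.eval z) (C := max C 0) (fun z _ => P.differentiableAt)
    (fun z hz => by rw [Polynomial.deriv]; exact (hC z hz).trans (le_max_left _ _)) hy hx

/-- With bounded second moments, Lipschitz functions decide weak convergence. -/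
theorem tendsto_bounded_of_lipschitz (X : ∀ n : ℕ, Sym2 (Fin n) → ℝ)
    (hsq : ∀ᶠ n in atTop, entryMean (X n) < 2)
    (hlip : ∀ g : ℝ → ℝ, Continuous g → (∃ G, ∀ x, |g x| ≤ G) →
      (∃ L, 0 ≤ L ∧ ∀ x y, |g x - g y| ≤ L * |x - y|) →
        Tendsto (fun n => spectralMean g (X n)) atTop (𝓝 (semiMean g)))
    {f : ℝ → ℝ} (hf : Continuous f) {F : ℝ} (hb : ∀ x, |f x| ≤ F) :
    Tendsto (fun n => spectralMean f (X n)) atTop (𝓝 (semiMean f)) := by
  refine Metric.tendsto_atTop'.2 fun η hη => ?_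
  have hF : 0 ≤ F := (abs_nonneg _).trans (hb 0)
  set M := max 2 (8 * (2 * F + 1) * 2 / η + 1) with hM
  have hM2 : 2 ≤ M := le_max_left _ _
  have hMK : (2 * F + 1) / M ^ 2 * 2 ≤ η / 8 := by
    have h1 : 8 * (2 * F + 1) * 2 / η ≤ M := le_trans (by linarith) (le_max_right _ _)
    rw [div_le_iff₀ hη] at h1
    rw [div_mul_eq_mul_div, div_le_iff₀ (by positivity)]
    nlinarith
  set ε := min 1 (η / 8) with hε
  have hε1 : ε ≤ 1 := min_le_left _ _
  have hε8 : ε ≤ η / 8 := min_le_right _ _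
  have hε0 : 0 < ε := lt_min one_pos (by positivity)
  obtain ⟨P, hP⟩ := exists_polynomial_near_of_continuousOn (-M) M f hf.continuousOn ε hε0
  obtain ⟨L, hL, hPL⟩ := polynomial_lipschitzOn P M
  set g := fun x => P.eval (max (-M) (min M x)) with hg
  have hmem : ∀ x, max (-M) (min M x) ∈ Set.Icc (-M) M := fun x =>
    ⟨le_max_left _ _, max_le (by linarith) (min_le_left _ _)⟩
  have hid : ∀ x ∈ Set.Icc (-M) M, g x = P.eval x := fun x hx => by
    simp only [hg, min_eq_right hx.2, max_eq_right hx.1]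
  have hgb : ∀ x, |g x| ≤ F + 1 := fun x => by
    have h1 := abs_sub_abs_le_abs_sub (g x) (f (max (-M) (min M x)))
    linarith [hb (max (-M) (min M x)), hP _ (hmem x)]
  have hglip : ∀ x y, |g x - g y| ≤ L * |x - y| := fun x y => by
    refine (hPL _ (hmem x) _ (hmem y)).trans (mul_le_mul_of_nonneg_left ?_ hL)
    refine ((abs_max_sub_max_le_max _ _ _ _).trans
      (max_le (by simp) (abs_min_sub_min_le_max _ _ _ _))).trans ?_
    simp
  have hgc : Continuous g := P.continuous.comp (by fun_prop)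
  have hnear : ∀ x, |f x - g x| ≤ ε + (2 * F + 1) / M ^ 2 * x ^ 2 := fun x => by
    by_cases hx : x ∈ Set.Icc (-M) M
    · rw [hid x hx, abs_sub_comm]
      exact le_add_of_le_of_nonneg (hP x hx).le (by positivity)
    · have hx2 : M ^ 2 ≤ x ^ 2 := by
        rcases not_and_or.1 hx with h | h <;> push Not at h <;> nlinarith
      have h1 : 2 * F + 1 ≤ (2 * F + 1) / M ^ 2 * x ^ 2 := by
        rw [div_mul_eq_mul_div, le_div_iff₀ (by positivity)]
        exact mul_le_mul_of_nonneg_left hx2 (by positivity)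
      linarith [abs_sub (f x) (g x), hb x, hgb x]
  obtain ⟨N, hN⟩ := ((hsq.and (eventually_gt_atTop 0)).and (Metric.tendsto_nhds.1
    (hlip g hgc ⟨_, hgb⟩ ⟨L, hL, hglip⟩) _ (half_pos hη))).exists_forall_of_atTop
  refine ⟨N, fun m hm => ?_⟩
  obtain ⟨⟨h1, hm0⟩, h2⟩ := hN m hm.le
  have hm' : (0 : ℝ) < m := Nat.cast_pos.2 hm0
  have h3 : |spectralMean f (X m) - spectralMean g (X m)| ≤
      ε + (2 * F + 1) / M ^ 2 * entryMean (X m) := by
    rw [← spectralMean_sq]
    simp only [spectralMean]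
    rw [← mul_sub, ← sum_sub_distrib, abs_mul, abs_inv, Nat.abs_cast, inv_mul_le_iff₀ hm']
    refine (abs_sum_le_sum_abs _ _).trans ((sum_le_sum fun i _ => hnear _).trans ?_)
    rw [sum_add_distrib, sum_const, card_univ, Fintype.card_fin, nsmul_eq_mul, ← mul_sum, mul_add,
      mul_left_comm (m : ℝ), mul_inv_cancel_left₀ hm'.ne']
  have h4 : |semiMean g - semiMean f| ≤ ε := abs_semiMean_sub_le hgc hf fun x hx => by
    have hx' : x ∈ Set.Icc (-M) M := ⟨by linarith [hx.1], by linarith [hx.2]⟩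
    rw [hid x hx']
    exact (hP x hx').le
  have h5 := mul_le_mul_of_nonneg_left h1.le (show 0 ≤ (2 * F + 1) / M ^ 2 by positivity)
  rw [Real.dist_eq] at h2 ⊢
  linarith [abs_sub_le (spectralMean f (X m)) (spectralMean g (X m)) (semiMean f),
    abs_sub_le (spectralMean g (X m)) (semiMean g) (semiMean f)]

/-- Intervals follow bounded continuous functions. -/
theorem tendsto_box_of_bounded (X : ∀ n : ℕ, Sym2 (Fin n) → ℝ)
    (h : ∀ f : ℝ → ℝ, Continuous f → (∃ F, ∀ x, |f x| ≤ F) →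
      Tendsto (fun n => spectralMean f (X n)) atTop (𝓝 (semiMean f))) (a b : ℝ) :
    Tendsto (fun n => spectralMean (boxInd a b) (X n)) atTop (𝓝 (semiMean (boxInd a b))) := by
  have hout := tendsto_semiMean_cut a b _ (continuous_outerCut a b) (abs_outerCut_le a b)
    fun x _ _ => tendsto_outerCut a b x
  have hin := tendsto_semiMean_cut a b _ (continuous_innerCut a b) (abs_innerCut_le a b)
    fun x ha hb => tendsto_innerCut a b x ⟨ha, hb⟩
  refine tendsto_order.2 ⟨fun c hc => ?_, fun c hc => ?_⟩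
  · obtain ⟨k, hk⟩ := (hin.eventually_const_lt hc).exists
    filter_upwards [(h _ (continuous_innerCut a b k)
      ⟨1, abs_innerCut_le a b k⟩).eventually_const_lt hk] with m hm
    exact hm.trans_le (spectralMean_mono (innerCut_le a b k) _)
  · obtain ⟨k, hk⟩ := (hout.eventually_lt_const hc).exists
    filter_upwards [(h _ (continuous_outerCut a b k)
      ⟨1, abs_outerCut_le a b k⟩).eventually_lt_const hk] with m hm
    exact (spectralMean_mono (le_outerCut a b k) _).trans_lt hm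

end FA.WignerFiniteVariance
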