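import Mathlib.Analysis.Matrix.Spectrum
import Mathlib.Analysis.InnerProductSpace.PiL2

/-!
# Sums over eigenvalues are Lipschitz in the matrix
-/

set_option autoImplicit false

noncomputable section

namespace FA.WignerFiniteVariance

open Finset Matrix

variable {ι : Type*} [Fintype ι] [DecidableEq ι]

omit [DecidableEq ι] in
theorem sum_sq_eq_trace (M : Matrix ι ι ℝ) :
    ∑ i, ∑ j, M i j ^ 2 = (M * Mᵀ).trace := by
  simp only [Matrix.trace, Matrix.diag, Matrix.mul_apply, Matrix.transpose_apply, sq]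

/-- The squares of the entries are invariant under orthogonal changes of basis. -/
theorem sum_sq_orthogonal (M : Matrix ι ι ℝ) {P Q : Matrix ι ι ℝ} (hP : Pᵀ * P = 1)
    (hQ : Q * Qᵀ = 1) : ∑ i, ∑ j, (P * M * Q) i j ^ 2 = ∑ i, ∑ j, M i j ^ 2 := by
  rw [sum_sq_eq_trace, sum_sq_eq_trace, transpose_mul, transpose_mul]
  calc (P * M * Q * (Qᵀ * (Mᵀ * Pᵀ))).trace
      = (P * (M * (Q * Qᵀ) * Mᵀ) * Pᵀ).trace := by simp only [Matrix.mul_assoc]
    _ = (Pᵀ * P * (M * Mᵀ)).trace := by rw [hQ, Matrix.mul_one, trace_mul_cycle]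
    _ = (M * Mᵀ).trace := by rw [hP, Matrix.one_mul]

theorem sum_sq_row {W : Matrix ι ι ℝ} (h : W * Wᵀ = 1) (i : ι) : ∑ j, W i j ^ 2 = 1 := by
  simpa [Matrix.mul_apply, sq] using congrFun (congrFun h i) i

/-- A doubly stochastic coupling of the eigenvalues of `A` and of `B` with quadratic cost the
distance of `A` and `B`. -/
theorem exists_eigen_coupling {A B : Matrix ι ι ℝ} (hA : A.IsHermitian) (hB : B.IsHermitian) :
    ∃ W : Matrix ι ι ℝ, (∀ i, ∑ j, W i j ^ 2 = 1) ∧ (∀ j, ∑ i, W i j ^ 2 = 1) ∧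
      ∑ i, ∑ j, W i j ^ 2 * (hA.eigenvalues i - hB.eigenvalues j) ^ 2 =
        ∑ i, ∑ j, (A i j - B i j) ^ 2 := by
  set U : Matrix ι ι ℝ := (hA.eigenvectorUnitary : Matrix ι ι ℝ) with hU
  set V : Matrix ι ι ℝ := (hB.eigenvectorUnitary : Matrix ι ι ℝ) with hV
  have hst : ∀ M : Matrix ι ι ℝ, star M = Mᵀ := fun M => by
    rw [star_eq_conjTranspose, conjTranspose_eq_transpose_of_trivial]
  have u1 : Uᵀ * U = 1 := by rw [← hst, hU, Unitary.coe_star_mul_self]
  have u2 : U * Uᵀ = 1 := by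
    rw [← hst, hU]
    exact Unitary.mul_star_self_of_mem hA.eigenvectorUnitary.2
  have v1 : Vᵀ * V = 1 := by rw [← hst, hV, Unitary.coe_star_mul_self]
  have v2 : V * Vᵀ = 1 := by
    rw [← hst, hV]
    exact Unitary.mul_star_self_of_mem hB.eigenvectorUnitary.2
  have eA : A = U * diagonal hA.eigenvalues * Uᵀ := by
    conv_lhs => rw [hA.spectral_theorem, Unitary.conjStarAlgAut_apply]
    rw [← hU, hst]
    simp
  have eB : B = V * diagonal hB.eigenvalues * Vᵀ := by
    conv_lhs => rw [hB.spectral_theorem, Unitary.conjStarAlgAut_apply]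
    rw [← hV, hst]
    simp
  refine ⟨Uᵀ * V, sum_sq_row ?_, fun j => sum_sq_row (W := (Uᵀ * V)ᵀ) ?_ j, ?_⟩
  · rw [transpose_mul, transpose_transpose, Matrix.mul_assoc, ← Matrix.mul_assoc V, v2,
      Matrix.one_mul, u1]
  · rw [transpose_transpose, transpose_mul, transpose_transpose, Matrix.mul_assoc,
      ← Matrix.mul_assoc U, u2, Matrix.one_mul, v1]
  · have key : Uᵀ * (A - B) * V =
        diagonal hA.eigenvalues * (Uᵀ * V) - Uᵀ * V * diagonal hB.eigenvalues := by
      have h1 : Uᵀ * A = diagonal hA.eigenvalues * Uᵀ := by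
        conv_lhs => rw [eA]
        rw [← Matrix.mul_assoc, ← Matrix.mul_assoc, u1, Matrix.one_mul]
      have h2 : B * V = V * diagonal hB.eigenvalues := by
        conv_lhs => rw [eB]
        rw [Matrix.mul_assoc, v1, Matrix.mul_one]
      rw [Matrix.mul_sub, Matrix.sub_mul, h1, Matrix.mul_assoc Uᵀ B, h2, Matrix.mul_assoc,
        Matrix.mul_assoc Uᵀ V]
    have hsum := sum_sq_orthogonal (A - B) (P := Uᵀ) (Q := V)
      (by rw [transpose_transpose, u2]) v2
    rw [key] at hsum
    simp only [Matrix.sub_apply, Matrix.diagonal_mul, Matrix.mul_diagonal] at hsum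
    rw [← hsum]
    exact sum_congr rfl fun i _ => sum_congr rfl fun j _ => by ring

/-- **The inequality of Hoffman and Wielandt for Lipschitz functions.** -/
theorem abs_sum_eigen_sub_le {A B : Matrix ι ι ℝ} (hA : A.IsHermitian) (hB : B.IsHermitian)
    {f : ℝ → ℝ} {L : ℝ} (hL : 0 ≤ L) (hf : ∀ x y, |f x - f y| ≤ L * |x - y|) :
    |∑ i, f (hA.eigenvalues i) - ∑ i, f (hB.eigenvalues i)| ≤
      L * (√(Fintype.card ι) * √(∑ i, ∑ j, (A i j - B i j) ^ 2)) := by
  obtain ⟨W, hrow, hcol, hW⟩ := exists_eigen_coupling hA hB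
  set a := hA.eigenvalues
  set b := hB.eigenvalues
  have e : ∑ i, f (a i) - ∑ i, f (b i) = ∑ i, ∑ j, W i j ^ 2 * (f (a i) - f (b j)) := by
    simp only [mul_sub, sum_sub_distrib]
    congr 1
    · exact sum_congr rfl fun i _ => by rw [← sum_mul, hrow, one_mul]
    · rw [sum_comm]
      exact sum_congr rfl fun i _ => by rw [← sum_mul, hcol, one_mul]
  rw [e]
  calc |∑ i, ∑ j, W i j ^ 2 * (f (a i) - f (b j))|
      ≤ ∑ i, ∑ j, W i j ^ 2 * (L * |a i - b j|) :=
        (abs_sum_le_sum_abs _ _).trans (sum_le_sum fun i _ =>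
          (abs_sum_le_sum_abs _ _).trans (sum_le_sum fun j _ => by
            rw [abs_mul, abs_sq]
            exact mul_le_mul_of_nonneg_left (hf _ _) (sq_nonneg _)))
    _ = L * ∑ p : ι × ι, |W p.1 p.2| * (|W p.1 p.2| * |a p.1 - b p.2|) := by
        rw [Fintype.sum_prod_type, mul_sum]
        refine sum_congr rfl fun i _ => ?_
        rw [mul_sum]
        refine sum_congr rfl fun j _ => ?_
        rw [← sq_abs (W i j)]
        ring
    _ ≤ _ := by
        refine mul_le_mul_of_nonneg_left ((Real.sum_mul_le_sqrt_mul_sqrt _ _ _).trans_eq ?_) hL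
        congr 2
        · rw [Fintype.sum_prod_type]
          simp [hrow]
        · rw [← hW, Fintype.sum_prod_type]
          simp only [mul_pow, sq_abs]

end FA.WignerFiniteVariance
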